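import Mathlib
import Fermat.Prelude.Def_FLTPrelim_FreyPackage
import Fermat.Prelude.Def_FLTPrelim_Modularity
import Fermat.Prelude.Def_FreyPackage_IsConductorLevel

/-! # The integral model of the Frey curve is semistable -/

set_option autoImplicit false

namespace FLTA.Wiring

theorem frey_four_dvd (P : FreyPackage) : (4 : ℤ) ∣ P.b ^ P.p - 1 - P.a ^ P.p := by
  obtain ⟨k, hk⟩ := P.hp_odd
  have hb : (2 : ℤ) ∣ P.b := (ZMod.intCast_zmod_eq_zero_iff_dvd P.b 2).1 P.hb2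
  have h4b : (4 : ℤ) ∣ P.b ^ P.p :=
    (show (4 : ℤ) = 2 ^ 2 by norm_num) ▸
      (pow_dvd_pow_of_dvd hb 2).trans (pow_dvd_pow P.b (by have := P.hp5; omega))
  refine (ZMod.intCast_zmod_eq_zero_iff_dvd _ 4).1 ?_
  have hb0 : ((P.b ^ P.p : ℤ) : ZMod 4) = 0 := (ZMod.intCast_zmod_eq_zero_iff_dvd _ 4).2 h4b
  push_cast at hb0 ⊢
  rw [hb0, P.ha4, hk, pow_succ, pow_mul, show (3 : ZMod 4) ^ 2 = 1 by decide, one_pow]
  decide

theorem frey_sixteen_dvd (P : FreyPackage) : (16 : ℤ) ∣ -(P.a ^ P.p) * P.b ^ P.p := by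
  have hb : (2 : ℤ) ∣ P.b := (ZMod.intCast_zmod_eq_zero_iff_dvd P.b 2).1 P.hb2
  exact dvd_mul_of_dvd_right
    ((show (16 : ℤ) = 2 ^ 4 by norm_num) ▸
      (pow_dvd_pow_of_dvd hb 4).trans (pow_dvd_pow P.b (by have := P.hp5; omega))) _

theorem freyCurveInt_map_rat (P : FreyPackage) :
    P.freyCurveInt.map (Int.castRingHom ℚ) = P.freyCurve := by
  ext <;>
    simp [WeierstrassCurve.map, FreyPackage.freyCurveInt, FreyPackage.freyCurve,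
      Int.cast_div (frey_four_dvd P)]
  rw [Int.cast_div (by simpa using frey_sixteen_dvd P) (by norm_num)]
  push_cast
  ring

theorem freyCurveInt_isIntegralModelOf (P : FreyPackage) :
    P.freyCurveInt.IsIntegralModelOf P.freyCurve :=
  ⟨1, by rw [one_smul, freyCurveInt_map_rat]⟩

theorem freyCurveInt_Δ_mul (P : FreyPackage) :
    256 * P.freyCurveInt.Δ = (P.a ^ P.p * P.b ^ P.p * P.c ^ P.p) ^ 2 := by
  obtain ⟨s, hs⟩ := frey_four_dvd P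
  obtain ⟨t, ht⟩ := frey_sixteen_dvd P
  have h2 : (P.b ^ P.p - 1 - P.a ^ P.p) / 4 = s := by rw [hs]; omega
  have h4 : -(P.a ^ P.p) * P.b ^ P.p / 16 = t := by rw [ht]; omega
  simp only [WeierstrassCurve.Δ, WeierstrassCurve.b₂, WeierstrassCurve.b₄, WeierstrassCurve.b₆,
    WeierstrassCurve.b₈, FreyPackage.freyCurveInt, h2, h4]
  rw [← P.hFLT]
  generalize P.a ^ P.p = A at *
  generalize P.b ^ P.p = B at *
  grind

theorem freyCurveInt_c₄ (P : FreyPackage) :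
    P.freyCurveInt.c₄ =
      (P.a ^ P.p) ^ 2 + P.a ^ P.p * P.b ^ P.p + (P.b ^ P.p) ^ 2 := by
  obtain ⟨s, hs⟩ := frey_four_dvd P
  obtain ⟨t, ht⟩ := frey_sixteen_dvd P
  have h2 : (P.b ^ P.p - 1 - P.a ^ P.p) / 4 = s := by rw [hs]; omega
  have h4 : -(P.a ^ P.p) * P.b ^ P.p / 16 = t := by rw [ht]; omega
  simp only [WeierstrassCurve.c₄, WeierstrassCurve.b₂, WeierstrassCurve.b₄,
    FreyPackage.freyCurveInt, h2, h4]
  generalize P.a ^ P.p = A at *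
  generalize P.b ^ P.p = B at *
  grind

theorem freyCurveInt_Δ_ne_zero (P : FreyPackage) : P.freyCurveInt.Δ ≠ 0 := by
  intro h
  have h1 := freyCurveInt_Δ_mul P
  rw [h, mul_zero] at h1
  have h2 := pow_ne_zero 2 (mul_ne_zero (mul_ne_zero (pow_ne_zero P.p P.ha0)
    (pow_ne_zero P.p P.hb0)) (pow_ne_zero P.p P.hc0))
  exact h2 h1.symm

theorem dvd_abc_of_dvd_freyCurveInt_Δ (P : FreyPackage) {q : ℕ} (hq : q.Prime)
    (h : (q : ℤ) ∣ P.freyCurveInt.Δ) : (q : ℤ) ∣ P.a * P.b * P.c := by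
  have h' : (q : ℤ) ∣ (P.a ^ P.p * P.b ^ P.p * P.c ^ P.p) ^ 2 :=
    freyCurveInt_Δ_mul P ▸ dvd_mul_of_dvd_right h _
  have hq' : Prime (q : ℤ) := Nat.prime_iff_prime_int.mp hq
  have := hq'.dvd_of_dvd_pow h'
  rw [← mul_pow, ← mul_pow] at this
  exact hq'.dvd_of_dvd_pow this

theorem freyCurveInt_isSemistableModel (P : FreyPackage) :
    P.freyCurveInt.IsSemistableModel := by
  intro q hq hΔ hc4
  have hq' : Prime (q : ℤ) := Nat.prime_iff_prime_int.mp hq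
  rw [freyCurveInt_c₄] at hc4
  have key : (q : ℤ) ∣ P.a ∧ (q : ℤ) ∣ P.b := by
    rcases hq'.dvd_or_dvd (dvd_abc_of_dvd_freyCurveInt_Δ P hq hΔ) with h | h
    · rcases hq'.dvd_or_dvd h with h | h
      · have hA : (q : ℤ) ∣ P.a ^ P.p := dvd_pow h P.hp0
        have : (q : ℤ) ∣ (P.b ^ P.p) ^ 2 := by
          have e : (P.b ^ P.p) ^ 2 = ((P.a ^ P.p) ^ 2 + P.a ^ P.p * P.b ^ P.p + (P.b ^ P.p) ^ 2)
              - P.a ^ P.p * (P.a ^ P.p + P.b ^ P.p) := by ring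
          rw [e]; exact dvd_sub hc4 (dvd_mul_of_dvd_left hA _)
        exact ⟨h, hq'.dvd_of_dvd_pow (hq'.dvd_of_dvd_pow this)⟩
      · have hB : (q : ℤ) ∣ P.b ^ P.p := dvd_pow h P.hp0
        have : (q : ℤ) ∣ (P.a ^ P.p) ^ 2 := by
          have e : (P.a ^ P.p) ^ 2 = ((P.a ^ P.p) ^ 2 + P.a ^ P.p * P.b ^ P.p + (P.b ^ P.p) ^ 2)
              - P.b ^ P.p * (P.a ^ P.p + P.b ^ P.p) := by ring
          rw [e]; exact dvd_sub hc4 (dvd_mul_of_dvd_left hB _)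
        exact ⟨hq'.dvd_of_dvd_pow (hq'.dvd_of_dvd_pow this), h⟩
    · have hC : (q : ℤ) ∣ P.a ^ P.p + P.b ^ P.p := P.hFLT ▸ dvd_pow h P.hp0
      have hA : (q : ℤ) ∣ (P.a ^ P.p) ^ 2 := by
        have e : (P.a ^ P.p) ^ 2 = ((P.a ^ P.p) ^ 2 + P.a ^ P.p * P.b ^ P.p + (P.b ^ P.p) ^ 2)
            - P.b ^ P.p * (P.a ^ P.p + P.b ^ P.p) := by ring
        rw [e]; exact dvd_sub hc4 (dvd_mul_of_dvd_right hC _)
      have hA' : (q : ℤ) ∣ P.a ^ P.p := hq'.dvd_of_dvd_pow hA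
      exact ⟨hq'.dvd_of_dvd_pow hA', hq'.dvd_of_dvd_pow ((dvd_add_right hA').mp hC)⟩
  have h1 : (q : ℤ) ∣ gcd P.a P.b := dvd_gcd key.1 key.2
  rw [P.hgcdab] at h1
  exact hq'.not_isUnit (isUnit_of_dvd_one h1)

end FLTA.Wiring
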