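import Mathlib
import Fermat.Prelude.Def_FLTPrelim_ModularRep
import Fermat.Prelude.Def_FLTPrelim_CofixedLine

/-! # Hypothesis-parametrised wiring of S01, S03 and S09

Each `of_*` hypothesis is literally the statement of the indicated row. -/

set_option autoImplicit false

open WeierstrassCurve WeierstrassCurve.Affine WeierstrassCurve.Affine.Point
open CuspForm ModularFormClass

namespace FLTA.Wiring

/-- S01 from S02 and S03. -/
theorem s01_of
    (h02 : ∀ (a b c : ℤ), a ≠ 0 → b ≠ 0 → c ≠ 0 → ∀ (p : ℕ), p.Prime → 5 ≤ p →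
      a ^ p + b ^ p = c ^ p → Nonempty FreyPackage)
    (h03 : FreyPackage → False)
    (n : ℕ) (hn : 3 ≤ n) (a b c : ℕ) (ha : 0 < a) (hb : 0 < b) (hc : 0 < c) :
    a ^ n + b ^ n ≠ c ^ n := by
  have key : FermatLastTheorem := by
    refine FermatLastTheorem.of_odd_primes fun p pp hodd => ?_
    by_cases h3 : p = 3
    · subst h3; exact fermatLastTheoremThree
    have hp5 : 5 ≤ p := by
      have := pp.two_le
      obtain ⟨k, hk⟩ := hodd
      omega
    refine fermatLastTheoremFor_iff_int.mpr fun x y z hx hy hz H => ?_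
    obtain ⟨P⟩ := h02 x y z hx hy hz p pp hp5 H
    exact h03 P
  exact key n hn a b c ha.ne' hb.ne' hc.ne'

/-- S03 from S04, S07, S09 and S45. -/
theorem s03_of
    (h04 : ∀ P : FreyPackage, P.freyCurve.IsModular)
    (h07 : ∀ f : CuspForm (CongruenceSubgroup.Gamma0 2) 2, f = 0)
    (h09 : ∀ P : FreyPackage,
      GaloisRepIsIrreducible (K := AlgebraicClosure ℚ) ℚ P.freyCurve P.p)
    (h45 : ∀ P : FreyPackage, P.freyCurve.IsModular →
      GaloisRepIsIrreducible (K := AlgebraicClosure ℚ) ℚ P.freyCurve P.p →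
      ∃ f : CuspForm (CongruenceSubgroup.Gamma0 2) 2, f ≠ 0)
    (P : FreyPackage) : False := by
  obtain ⟨f, hf⟩ := h45 P (h04 P) (h09 P)
  exact hf (h07 f)

/-- S09 from S10, S11, S12 and S13. -/
theorem s09_of
    (h10 : ∀ P : FreyPackage, P.p = 5 ∨ P.p = 7 ∨ P.p = 13 →
      ¬ HasGaloisStableCofixedLine (K := AlgebraicClosure ℚ) ℚ P.freyCurve P.p)
    (h11 : ∀ P : FreyPackage, P.p = 11 →
      ¬ HasGaloisStableCofixedLine (K := AlgebraicClosure ℚ) ℚ P.freyCurve P.p)
    (h12 : ∀ P : FreyPackage, 17 ≤ P.p →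
      ¬ HasGaloisStableCofixedLine (K := AlgebraicClosure ℚ) ℚ P.freyCurve P.p)
    (h13 : ∀ P : FreyPackage,
      ¬ GaloisRepIsIrreducible (K := AlgebraicClosure ℚ) ℚ P.freyCurve P.p →
      HasGaloisStableCofixedLine (K := AlgebraicClosure ℚ) ℚ P.freyCurve P.p)
    (P : FreyPackage) :
    GaloisRepIsIrreducible (K := AlgebraicClosure ℚ) ℚ P.freyCurve P.p := by
  by_contra hred
  have hline := h13 P hred
  by_cases h17 : 17 ≤ P.p
  · exact h12 P h17 hline
  have hp := P.pp
  have h5 := P.hp5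
  have hcases : P.p = 5 ∨ P.p = 7 ∨ P.p = 11 ∨ P.p = 13 := by
    generalize P.p = q at hp h5 h17
    interval_cases q <;> simp_all +decide
  rcases hcases with h | h | h | h
  · exact h10 P (Or.inl h) hline
  · exact h10 P (Or.inr (Or.inl h)) hline
  · exact h11 P h hline
  · exact h10 P (Or.inr (Or.inr h)) hline

end FLTA.Wiring
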