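import Mathlib
import Fermat.Prelude.Def_FLTPrelim_ModularRep
import Fermat.Prelude.Def_FLTPrelim_Ramification
import Fermat.Prelude.Def_FreyPackage_IsConductorLevel

/-! # Hypothesis-parametrised wiring of S45 -/

set_option autoImplicit false

open WeierstrassCurve WeierstrassCurve.Affine WeierstrassCurve.Affine.Point
open CuspForm ModularFormClass

namespace FLTA.Wiring

/-- Removing all odd primes from a conductor level, given S05, S43 and S44. -/
theorem exists_level_dvd_two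
    (h05 : ∀ (P : FreyPackage) {q : ℕ}, q.Prime → q ≠ 2 → q ≠ P.p → P.GaloisRepUnramifiedAt q)
    (h43 : ∀ (P : FreyPackage) {N q : ℕ}, P.IsConductorLevel N → q.Prime → q ≠ 2 → q ≠ P.p →
      q ∣ N → GaloisRepIsIrreducible (K := AlgebraicClosure ℚ) ℚ P.freyCurve P.p →
      P.ModularRepOfLevel N → P.GaloisRepUnramifiedAt q →
      ∃ M : ℕ, M ∣ N ∧ ¬ q ∣ M ∧ P.ModularRepOfLevel M)
    (h44 : ∀ (P : FreyPackage) {N : ℕ}, P.IsConductorLevel N → P.p ∣ N →
      GaloisRepIsIrreducible (K := AlgebraicClosure ℚ) ℚ P.freyCurve P.p →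
      P.ModularRepOfLevel N → ∃ M : ℕ, M ∣ N ∧ ¬ P.p ∣ M ∧ P.ModularRepOfLevel M)
    (P : FreyPackage)
    (hirr : GaloisRepIsIrreducible (K := AlgebraicClosure ℚ) ℚ P.freyCurve P.p)
    (N : ℕ) (hcond : P.IsConductorLevel N) (hmod : P.ModularRepOfLevel N) :
    ∃ M : ℕ, M ∣ 2 ∧ P.ModularRepOfLevel M := by
  induction N using Nat.strong_induction_on with
  | _ N ih =>
    by_cases hodd : ∃ q : ℕ, q.Prime ∧ q ≠ 2 ∧ q ∣ N
    · obtain ⟨q, hq, hq2, hqN⟩ := hodd
      obtain ⟨M, hMN, hqM, hM⟩ : ∃ M : ℕ, M ∣ N ∧ ¬ q ∣ M ∧ P.ModularRepOfLevel M := by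
        by_cases hqp : q = P.p
        · subst hqp; exact h44 P hcond hqN hirr hmod
        · exact h43 P hcond hq hq2 hqp hqN hirr hmod (h05 P hq hq2 hqp)
      have hlt : M < N :=
        lt_of_le_of_ne (Nat.le_of_dvd hcond.pos hMN) (fun h => hqM (h ▸ hqN))
      exact ih M hlt (hcond.of_dvd hMN (Nat.pos_of_dvd_of_pos hMN hcond.pos)) hM
    · simp only [not_exists, not_and] at hodd
      refine ⟨N, ?_, hmod⟩
      rw [← Nat.prod_primeFactors_of_squarefree hcond.squarefree]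
      have hsub : N.primeFactors ⊆ {2} := by
        intro q hq
        rw [Finset.mem_singleton]
        by_contra hne
        exact hodd q (Nat.prime_of_mem_primeFactors hq) hne (Nat.dvd_of_mem_primeFactors hq)
      exact (Finset.prod_dvd_prod_of_subset _ _ _ hsub).trans (by simp)

/-- S45 from S05, S06, S08, S43 and S44. -/
theorem s45_of
    (h05 : ∀ (P : FreyPackage) {q : ℕ}, q.Prime → q ≠ 2 → q ≠ P.p → P.GaloisRepUnramifiedAt q)
    (h06 : ∀ P : FreyPackage, ∃ N : ℕ, P.IsConductorLevel N ∧ P.ModularRepOfLevel N)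
    (h08 : ∀ f : CuspForm (CongruenceSubgroup.Gamma0 1) 2, f = 0)
    (h43 : ∀ (P : FreyPackage) {N q : ℕ}, P.IsConductorLevel N → q.Prime → q ≠ 2 → q ≠ P.p →
      q ∣ N → GaloisRepIsIrreducible (K := AlgebraicClosure ℚ) ℚ P.freyCurve P.p →
      P.ModularRepOfLevel N → P.GaloisRepUnramifiedAt q →
      ∃ M : ℕ, M ∣ N ∧ ¬ q ∣ M ∧ P.ModularRepOfLevel M)
    (h44 : ∀ (P : FreyPackage) {N : ℕ}, P.IsConductorLevel N → P.p ∣ N →
      GaloisRepIsIrreducible (K := AlgebraicClosure ℚ) ℚ P.freyCurve P.p →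
      P.ModularRepOfLevel N → ∃ M : ℕ, M ∣ N ∧ ¬ P.p ∣ M ∧ P.ModularRepOfLevel M)
    (P : FreyPackage) (_hmod : P.freyCurve.IsModular)
    (hirr : GaloisRepIsIrreducible (K := AlgebraicClosure ℚ) ℚ P.freyCurve P.p) :
    ∃ f : CuspForm (CongruenceSubgroup.Gamma0 2) 2, f ≠ 0 := by
  obtain ⟨N, hcond, hN⟩ := h06 P
  obtain ⟨M, hM, f, W, 𝔪, hf, -⟩ := exists_level_dvd_two h05 h43 h44 P hirr N hcond hN
  rcases (Nat.dvd_prime Nat.prime_two).mp hM with rfl | rfl
  · exact absurd (h08 f) hf.ne_zero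
  · exact ⟨f, hf.ne_zero⟩

end FLTA.Wiring
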