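import Mathlib
import Fermat.Prelude.Def_WeierstrassCurve_Mlc1RowStatement
import Fermat.Agent.Wiring.FreyModel

/-! # Hypothesis-parametrised wiring of S04, S06 and S60

`hLT` below is residual modularity at 3 in the strength the lifting statement S59 consumes
(no factor 9 in the level); S50 gives it except when the level is divisible by 9. -/

set_option autoImplicit false

open WeierstrassCurve WeierstrassCurve.Affine WeierstrassCurve.Affine.Point
open CuspForm ModularFormClass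

namespace FLTA.Wiring

/-- A modular model of some level is residually modular of that level at every prime. -/
theorem isResiduallyModularOfLevel_of_isModularModelOfLevel {W : WeierstrassCurve ℤ} {p N : ℕ}
    (hp : p.Prime) (h : W.IsModularModelOfLevel N) : W.IsResiduallyModularOfLevel p N := by
  obtain ⟨f, hf, hcoef⟩ := h
  obtain ⟨𝔪, hmax, hmem⟩ := FLTPrelim.exists_maximalIdeal_natCast_prime_mem hp
  refine ⟨f, 𝔪, hf, hmax, hmem, fun ℓ hℓ hgood hN _ => ⟨(W.apOfModel ℓ : ℤ), ?_, by simp⟩⟩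
  rw [hcoef ℓ hℓ hgood hN]; simp

/-- Residual modularity passes between curves whose traces agree modulo `p`, as long as the
level contains every bad prime of the curve we start from. -/
theorem isResiduallyModularOfLevel_congr {W W' : WeierstrassCurve ℤ} {p N : ℕ}
    (hbad : ∀ ℓ : ℕ, ℓ.Prime → (ℓ : ℤ) ∣ W'.Δ → ℓ ∣ N)
    (hcong : ∀ ℓ : ℕ, ℓ.Prime → W.IsGoodPrimeFor ℓ → W'.IsGoodPrimeFor ℓ → ℓ ≠ p →
      (p : ℤ) ∣ (W'.apOfModel ℓ - W.apOfModel ℓ))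
    (h : W'.IsResiduallyModularOfLevel p N) : W.IsResiduallyModularOfLevel p N := by
  obtain ⟨f, 𝔪, hf, hmax, hmem, hcoef⟩ := h
  refine ⟨f, 𝔪, hf, hmax, hmem, fun ℓ hℓ hgood hN hℓp => ?_⟩
  have hgood' : W'.IsGoodPrimeFor ℓ := fun hd => hN (hbad ℓ hℓ hd)
  obtain ⟨a, ha, ha'⟩ := hcoef ℓ hℓ hgood' hN hℓp
  obtain ⟨k, hk⟩ := hcong ℓ hℓ hgood hgood' hℓp
  refine ⟨a, ha, ?_⟩
  have e : a - ((W.apOfModel ℓ : ℤ) : integralClosure ℤ ℂ) =
      (a - ((W'.apOfModel ℓ : ℤ) : integralClosure ℤ ℂ)) +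
        (p : integralClosure ℤ ℂ) * (k : integralClosure ℤ ℂ) := by
    have : ((W'.apOfModel ℓ - W.apOfModel ℓ : ℤ) : integralClosure ℤ ℂ) =
        (p : integralClosure ℤ ℂ) * (k : integralClosure ℤ ℂ) := by rw [hk]; simp
    push_cast at this
    rw [← this]; ring
  rw [e]; exact Ideal.add_mem _ ha' (Ideal.mul_mem_right _ _ hmem)

/-- Exact-conductor modularity from S51, S52, S59 and residual modularity at 3. -/
theorem exactConductor_of
    (h51 : ∀ W : WeierstrassCurve ℤ, W.Δ ≠ 0 → W.IsSemistableModel →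
      W.ModRepIsIrreducible 3 ∨ W.ModRepIsIrreducible 5)
    (h52 : ∀ W : WeierstrassCurve ℤ, W.Δ ≠ 0 → W.IsSemistableModel → W.ModRepIsIrreducible 5 →
      ∃ W' : WeierstrassCurve ℤ, W'.Δ ≠ 0 ∧ W'.IsSemistableModel ∧ W'.ModRepIsIrreducible 3 ∧
        ∀ ℓ : ℕ, ℓ.Prime → W.IsGoodPrimeFor ℓ → W'.IsGoodPrimeFor ℓ → ℓ ≠ 5 →
          (5 : ℤ) ∣ (W'.apOfModel ℓ - W.apOfModel ℓ))
    (h59 : ∀ (p : ℕ), p = 3 ∨ p = 5 → ∀ W : WeierstrassCurve ℤ, W.Δ ≠ 0 → W.IsSemistableModel →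
      W.ModRepIsIrreducible p → ∀ (M₀ : ℕ) [NeZero M₀], W.IsResiduallyModularOfLevel p M₀ →
      ¬ p ^ 2 ∣ M₀ → (∀ q : ℕ, q.Prime → q ≠ p → ¬ q ^ 3 ∣ M₀) →
      Mlc1IsModularModelOfExactConductorLevel W)
    (hLT : ∀ W : WeierstrassCurve ℤ, W.Δ ≠ 0 → W.IsSemistableModel → W.ModRepIsIrreducible 3 →
      ∃ M : ℕ, 0 < M ∧ W.IsResiduallyModularOfLevel 3 M ∧ ¬ 3 ^ 2 ∣ M ∧
        ∀ q : ℕ, q.Prime → q ≠ 3 → ¬ q ^ 3 ∣ M)
    (W : WeierstrassCurve ℤ) (hΔ : W.Δ ≠ 0) (hW : W.IsSemistableModel) :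
    Mlc1IsModularModelOfExactConductorLevel W := by
  have h3 : ∀ V : WeierstrassCurve ℤ, V.Δ ≠ 0 → V.IsSemistableModel → V.ModRepIsIrreducible 3 →
      Mlc1IsModularModelOfExactConductorLevel V := by
    intro V hVΔ hV hirr
    obtain ⟨M, hM, hres, h9, hcube⟩ := hLT V hVΔ hV hirr
    have : NeZero M := ⟨hM.ne'⟩
    exact h59 3 (Or.inl rfl) V hVΔ hV hirr M hres h9 hcube
  rcases h51 W hΔ hW with hirr | hirr
  · exact h3 W hΔ hW hirr
  obtain ⟨W', hΔ', hW', hirr', hcong⟩ := h52 W hΔ hW hirr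
  obtain ⟨N, hN, hsq, hsupp, hmod⟩ := h3 W' hΔ' hW' hirr'
  have : NeZero N := ⟨hN.ne'⟩
  refine h59 5 (Or.inr rfl) W hΔ hW hirr N
    (isResiduallyModularOfLevel_congr (fun ℓ hℓ hd => (hsupp ℓ hℓ).mpr hd) hcong
      (isResiduallyModularOfLevel_of_isModularModelOfLevel (by norm_num) hmod)) ?_ ?_
  · exact fun hd => (Nat.squarefree_iff_prime_squarefree.mp hsq 5 (by norm_num)) (by rwa [← pow_two])
  · exact fun q hq _ hd => (Nat.squarefree_iff_prime_squarefree.mp hsq q hq)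
      ((pow_two q ▸ pow_dvd_pow q (by norm_num : 2 ≤ 3)).trans hd)

/-- S60 from exact-conductor modularity. -/
theorem s60_of
    (hex : ∀ W : WeierstrassCurve ℤ, W.Δ ≠ 0 → W.IsSemistableModel →
      Mlc1IsModularModelOfExactConductorLevel W)
    (W : WeierstrassCurve ℤ) (hΔ : W.Δ ≠ 0) (hW : W.IsSemistableModel) :
    (W.map (Int.castRingHom ℚ)).IsModular := by
  obtain ⟨N, hN, -, -, hmod⟩ := hex W hΔ hW
  exact ⟨W, ⟨1, one_smul _ _⟩, N, hN, hmod⟩

/-- S04 from S60. -/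
theorem s04_of
    (h60 : ∀ W : WeierstrassCurve ℤ, W.Δ ≠ 0 → W.IsSemistableModel →
      (W.map (Int.castRingHom ℚ)).IsModular)
    (P : FreyPackage) : P.freyCurve.IsModular := by
  rw [← freyCurveInt_map_rat]
  exact h60 _ (freyCurveInt_Δ_ne_zero P) (freyCurveInt_isSemistableModel P)

/-- S06 from exact-conductor modularity. -/
theorem s06_of
    (hex : ∀ W : WeierstrassCurve ℤ, W.Δ ≠ 0 → W.IsSemistableModel →
      Mlc1IsModularModelOfExactConductorLevel W)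
    (P : FreyPackage) : ∃ N : ℕ, P.IsConductorLevel N ∧ P.ModularRepOfLevel N := by
  obtain ⟨N, hN, hsq, hsupp, hmod⟩ :=
    hex _ (freyCurveInt_Δ_ne_zero P) (freyCurveInt_isSemistableModel P)
  refine ⟨N, ⟨hN, hsq, fun q hq hqN =>
    dvd_abc_of_dvd_freyCurveInt_Δ P hq ((hsupp q hq).mp hqN)⟩, ?_⟩
  obtain ⟨f, 𝔪, hf, hmax, hmem, hcoef⟩ :=
    isResiduallyModularOfLevel_of_isModularModelOfLevel P.pp hmod
  exact ⟨f, P.freyCurveInt, 𝔪, hf, freyCurveInt_isIntegralModelOf P, hmax, hmem, hcoef⟩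

end FLTA.Wiring
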